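/-
S26 / block G (Theorem B, pure field theory, Mathlib only; architect helper187).
LEAF G-08.  The ratio field of `span S` is generated by `s / v0`, `s ∈ S`.
Proof.  `≥`: `div_mem_ratioField_of_mem`.  `≤`: for `v ∈ span K S`, `v / v0 ∈ adjoin K (..)` by
`Submodule.span_induction` (`add_div`, `smul_div_assoc`/`Algebra.smul_def`), and `v / w = (v / v0) / (w / v0)`.
-/
import Fermat.Agent.S26.G.Basic

set_option autoImplicit false

universe u

namespace Fermat.Agent.S26.G

open Module IntermediateField

variable {K Ω : Type u} [Field K] [Field Ω] [Algebra K Ω]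

theorem ratioField_span_eq_adjoin_div (S : Set Ω) {v0 : Ω} (hv0 : v0 ∈ Submodule.span K S)
    (h0 : v0 ≠ 0) :
    ratioField (Submodule.span K S) = IntermediateField.adjoin K ((fun s => s / v0) '' S) := by
  apply le_antisymm
  · have key : ∀ v ∈ Submodule.span K S,
        v / v0 ∈ IntermediateField.adjoin K ((fun s => s / v0) '' S) := by
      intro v hv
      induction hv using Submodule.span_induction with
      | mem x hx => exact IntermediateField.subset_adjoin K _ ⟨x, hx, rfl⟩
      | zero => rw [zero_div]; exact zero_mem _
      | add x y _ _ hx hy => rw [add_div]; exact add_mem hx hy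
      | smul a x _ hx =>
        rw [Algebra.smul_def, mul_div_assoc]
        exact mul_mem (IntermediateField.algebraMap_mem _ a) hx
    rw [ratioField_def, IntermediateField.adjoin_le_iff]
    rintro _ ⟨v, hv, w, hw, hw0, rfl⟩
    have h1 : v / w = (v / v0) / (w / v0) := by
      field_simp
    rw [h1]
    exact div_mem (key v hv) (key w hw)
  · rw [IntermediateField.adjoin_le_iff]
    rintro _ ⟨x, hx, rfl⟩
    exact div_mem_ratioField_of_mem (Submodule.subset_span hx) hv0

end Fermat.Agent.S26.G
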