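/-
S26 / block G (Theorem B, pure field theory, Mathlib only; architect helper187).
LEAF G-04.  Fractions `p / q`, `p q ∈ V ^ b`, lie in the ratio field.
Proof.  `div_pow_mem_ratioField`: induction on `b`; `V ^ (b + 1) = V ^ b * V` (`pow_succ`),
`Submodule.mul_induction_on`: `(x * y) / v0 ^ (b + 1) = (x / v0 ^ b) * (y / v0)`; `b = 0`: `V ^ 0 = 1`,
`Submodule.mem_one`, `IntermediateField.algebraMap_mem`.  `div_mem_ratioField`: if `q = 0` trivial; if `b = 0`
both are constants; otherwise `V ≠ 0` (else `V ^ b = 0`, `q = 0`), pick `v0 ≠ 0` in `V`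
(`Submodule.exists_mem_ne_zero_of_ne_bot`) and write `p / q = (p / v0 ^ b) / (q / v0 ^ b)`.
-/
import Fermat.Agent.S26.G.Basic

set_option autoImplicit false

universe u

namespace Fermat.Agent.S26.G

open Module IntermediateField

variable {K Ω : Type u} [Field K] [Field Ω] [Algebra K Ω]

theorem div_pow_mem_ratioField {V : Submodule K Ω} {v0 : Ω} (hv0 : v0 ∈ V) (b : ℕ) {p : Ω}
    (hp : p ∈ V ^ b) : p / v0 ^ b ∈ ratioField V := by
  induction b generalizing p with
  | zero =>
    rw [pow_zero, Submodule.mem_one] at hp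
    obtain ⟨a, rfl⟩ := hp
    rw [pow_zero, div_one]
    exact IntermediateField.algebraMap_mem _ a
  | succ b ih =>
    rw [pow_succ] at hp
    induction hp using Submodule.mul_induction_on' with
    | mem_mul_mem x hx y hy =>
      have h1 : x * y / v0 ^ (b + 1) = (x / v0 ^ b) * (y / v0) := by
        rw [pow_succ, mul_div_mul_comm]
      rw [h1]
      exact mul_mem (ih hx) (div_mem_ratioField_of_mem hy hv0)
    | add x _ y _ hx hy =>
      rw [add_div]
      exact add_mem hx hy

theorem div_mem_ratioField {V : Submodule K Ω} (b : ℕ) {p q : Ω} (hp : p ∈ V ^ b)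
    (hq : q ∈ V ^ b) : p / q ∈ ratioField V := by
  by_cases hq0 : q = 0
  · rw [hq0, div_zero]
    exact zero_mem _
  by_cases hV : V = ⊥
  · -- then `b = 0` (otherwise `q = 0`), and `v0 = 0` works
    have h1 := div_pow_mem_ratioField (V := V) (v0 := 0) (zero_mem V) b hp
    have h2 := div_pow_mem_ratioField (V := V) (v0 := 0) (zero_mem V) b hq
    rcases Nat.eq_zero_or_pos b with rfl | hb
    · rw [pow_zero, div_one] at h1 h2
      exact div_mem h1 h2
    · exfalso
      apply hq0
      rw [hV, ← Submodule.zero_eq_bot, zero_pow hb.ne', Submodule.zero_eq_bot,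
        Submodule.mem_bot] at hq
      exact hq
  · obtain ⟨v0, hv0, hv0ne⟩ := Submodule.exists_mem_ne_zero_of_ne_bot hV
    have h1 := div_pow_mem_ratioField hv0 b hp
    have h2 := div_pow_mem_ratioField hv0 b hq
    have h3 : p / q = (p / v0 ^ b) / (q / v0 ^ b) := by
      rw [div_div_div_cancel_right₀ (pow_ne_zero b hv0ne)]
    rw [h3]
    exact div_mem h1 h2

end Fermat.Agent.S26.G
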