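/-
S26 / block G (Theorem B, pure field theory, Mathlib only; architect helper187).
LEAF G-07.  Functoriality of the ratio field.
Proof.  `ratioField_mono`: `IntermediateField.adjoin.mono`.  `ratioField_span_singleton_mul`: the two sets of ratios
are equal (`mem_span_singleton_mul`, `mul_div_mul_left`).  `ratioField_pow`: `≤` by `adjoin_le_iff` +
`div_mem_ratioField`; `≥`: `v / w = (v * w ^ (e - 1)) / (w ^ e)`.  `ratioField_map`:
`IntermediateField.adjoin_map` and `ratios (V.map σ) = σ '' ratios V` (`map_div₀`).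
-/
import Fermat.Agent.S26.G.Hilb.Scale
import Fermat.Agent.S26.G.Ratio.Mem

set_option autoImplicit false

universe u

namespace Fermat.Agent.S26.G

open Module IntermediateField

variable {K Ω : Type u} [Field K] [Field Ω] [Algebra K Ω]

theorem ratioField_mono {V1 V2 : Submodule K Ω} (h : V1 ≤ V2) : ratioField V1 ≤ ratioField V2 := by
  apply IntermediateField.adjoin.mono
  rintro x ⟨v, hv, w, hw, hw0, rfl⟩
  exact ⟨v, h hv, w, h hw, hw0, rfl⟩

theorem ratioField_span_singleton_mul {c : Ω} (hc : c ≠ 0) (V : Submodule K Ω) :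
    ratioField (Submodule.span K {c} * V) = ratioField V := by
  have h : ratios (Submodule.span K {c} * V) = ratios V := by
    ext x
    constructor
    · rintro ⟨v, hv, w, hw, hw0, rfl⟩
      obtain ⟨v', hv', rfl⟩ := mem_span_singleton_mul.1 hv
      obtain ⟨w', hw', rfl⟩ := mem_span_singleton_mul.1 hw
      exact ⟨v', hv', w', hw', right_ne_zero_of_mul hw0, mul_div_mul_left _ _ hc⟩
    · rintro ⟨v, hv, w, hw, hw0, rfl⟩
      exact ⟨c * v, mem_span_singleton_mul.2 ⟨v, hv, rfl⟩, c * w,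
        mem_span_singleton_mul.2 ⟨w, hw, rfl⟩, mul_ne_zero hc hw0, (mul_div_mul_left _ _ hc).symm⟩
  rw [ratioField_def, ratioField_def, h]

theorem ratioField_pow (V : Submodule K Ω) {e : ℕ} (he : 0 < e) :
    ratioField (V ^ e) = ratioField V := by
  apply le_antisymm
  · rw [ratioField_def, IntermediateField.adjoin_le_iff]
    rintro x ⟨v, hv, w, hw, -, rfl⟩
    exact div_mem_ratioField e hv hw
  · rw [ratioField_def V, IntermediateField.adjoin_le_iff]
    rintro x ⟨v, hv, w, hw, hw0, rfl⟩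
    obtain ⟨n, rfl⟩ : ∃ n, e = n + 1 := ⟨e - 1, by omega⟩
    have h1 : v / w = (w ^ n * v) / (w ^ n * w) :=
      (mul_div_mul_left _ _ (pow_ne_zero n hw0)).symm
    rw [h1]
    have hwn : w ^ n ∈ V ^ n := Submodule.pow_mem_pow V hw n
    exact div_mem_ratioField_of_mem (by rw [pow_succ]; exact Submodule.mul_mem_mul hwn hv)
      (by rw [pow_succ]; exact Submodule.mul_mem_mul hwn hw)

theorem ratioField_map {Ω' : Type u} [Field Ω'] [Algebra K Ω'] (σ : Ω →ₐ[K] Ω')
    (V : Submodule K Ω) : ratioField (V.map σ.toLinearMap) = (ratioField V).map σ := by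
  have h : ratios (V.map σ.toLinearMap) = σ '' ratios V := by
    ext x
    constructor
    · rintro ⟨v, hv, w, hw, hw0, rfl⟩
      obtain ⟨v', hv', rfl⟩ := hv
      obtain ⟨w', hw', rfl⟩ := hw
      refine ⟨v' / w', ⟨v', hv', w', hw', ?_, rfl⟩, map_div₀ σ v' w'⟩
      rintro rfl
      exact hw0 (map_zero σ)
    · rintro ⟨_, ⟨v, hv, w, hw, hw0, rfl⟩, rfl⟩
      exact ⟨σ v, ⟨v, hv, rfl⟩, σ w, ⟨w, hw, rfl⟩, (map_ne_zero σ).2 hw0, map_div₀ σ v w⟩
  rw [ratioField_def, ratioField_def, h, IntermediateField.adjoin_map]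

end Fermat.Agent.S26.G
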