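/-
S26 / block G (Theorem B, pure field theory, Mathlib only; architect helper187).
LEAF G-05.  Every element of the ratio field is a fraction `p / q` with `p q ∈ V ^ b`, `q ≠ 0`.
Proof.  `IntermediateField.adjoin_induction` (or `Subfield.closure_induction`): generators `v / w` (`b = 1`,
`pow_one`), constants (`b = 0`, `Submodule.mem_one`/`Submodule.algebraMap_mem`, `q = 1`),
`p/q + p'/q' = (p q' + p' q)/(q q')` in `V ^ (b + b')` (`pow_add`, `Submodule.mul_mem_mul`),
products, inverses (`(p/q)⁻¹ = q/p` if `p ≠ 0`, else `0 = 0 / q`), negatives.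
-/
import Fermat.Agent.S26.G.Basic

set_option autoImplicit false

universe u

namespace Fermat.Agent.S26.G

open Module IntermediateField

variable {K Ω : Type u} [Field K] [Field Ω] [Algebra K Ω]

theorem exists_div_of_mem_ratioField {V : Submodule K Ω} {x : Ω} (hx : x ∈ ratioField V) :
    ∃ b : ℕ, ∃ p ∈ V ^ b, ∃ q ∈ V ^ b, q ≠ 0 ∧ x = p / q := by
  rw [ratioField_def] at hx
  induction hx using IntermediateField.adjoin_induction with
  | mem x hx =>
    obtain ⟨v, hv, w, hw, hw0, rfl⟩ := hx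
    exact ⟨1, v, by rwa [pow_one], w, by rwa [pow_one], hw0, rfl⟩
  | algebraMap a =>
    refine ⟨0, algebraMap K Ω a, ?_, 1, ?_, one_ne_zero, by rw [div_one]⟩
    · rw [pow_zero]
      exact Submodule.algebraMap_mem a
    · rw [pow_zero]
      exact Submodule.one_le.1 le_rfl
  | add x y _ _ hx hy =>
    obtain ⟨b, p, hp, q, hq, hq0, rfl⟩ := hx
    obtain ⟨b', p', hp', q', hq', hq0', rfl⟩ := hy
    refine ⟨b + b', p * q' + q * p', ?_, q * q', ?_, mul_ne_zero hq0 hq0', ?_⟩
    · rw [pow_add]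
      exact add_mem (Submodule.mul_mem_mul hp hq') (Submodule.mul_mem_mul hq hp')
    · rw [pow_add]
      exact Submodule.mul_mem_mul hq hq'
    · rw [div_add_div _ _ hq0 hq0']
  | inv x _ hx =>
    obtain ⟨b, p, hp, q, hq, hq0, rfl⟩ := hx
    by_cases hp0 : p = 0
    · exact ⟨b, 0, zero_mem _, q, hq, hq0, by rw [hp0, zero_div, inv_zero]⟩
    · exact ⟨b, q, hq, p, hp, hp0, by rw [inv_div]⟩
  | mul x y _ _ hx hy =>
    obtain ⟨b, p, hp, q, hq, hq0, rfl⟩ := hx
    obtain ⟨b', p', hp', q', hq', hq0', rfl⟩ := hy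
    refine ⟨b + b', p * p', ?_, q * q', ?_, mul_ne_zero hq0 hq0', ?_⟩
    · rw [pow_add]
      exact Submodule.mul_mem_mul hp hp'
    · rw [pow_add]
      exact Submodule.mul_mem_mul hq hq'
    · rw [div_mul_div_comm]

end Fermat.Agent.S26.G
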