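/-
S26 / block G (Theorem B, pure field theory, Mathlib only; architect helper187).
LEAF G-06.  Common denominators.
Proof.  Finset induction (`Finset.induction_on` on `Finset.univ`, or prove the `Finset` version first):
given `(b, q)` for `s` and `x i₀ = p' / q'`, `p' q' ∈ V ^ b'`, take `q * q' ∈ V ^ (b + b')`.
-/
import Fermat.Agent.S26.G.Ratio.Frac

set_option autoImplicit false

universe u

namespace Fermat.Agent.S26.G

open Module IntermediateField

variable {K Ω : Type u} [Field K] [Field Ω] [Algebra K Ω]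

private theorem denom_finset (V : Submodule K Ω) {ι : Type*} (x : ι → Ω)
    (hx : ∀ i, x i ∈ ratioField V) (s : Finset ι) :
    ∃ b : ℕ, ∃ q ∈ V ^ b, q ≠ 0 ∧ ∀ i ∈ s, q * x i ∈ V ^ b := by
  classical
  induction s using Finset.induction_on with
  | empty =>
    refine ⟨0, 1, ?_, one_ne_zero, fun i hi => absurd hi (Finset.notMem_empty i)⟩
    rw [pow_zero]
    exact Submodule.one_le.1 le_rfl
  | insert i₀ s _ ih =>
    obtain ⟨b, q, hq, hq0, h⟩ := ih
    obtain ⟨b', p', hp', q', hq', hq0', hx0⟩ := exists_div_of_mem_ratioField (hx i₀)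
    refine ⟨b + b', q * q', ?_, mul_ne_zero hq0 hq0', fun i hi => ?_⟩
    · rw [pow_add]
      exact Submodule.mul_mem_mul hq hq'
    · rw [pow_add]
      rcases Finset.mem_insert.1 hi with rfl | hi
      · have e : q * q' * x i = q * p' := by
          rw [hx0]
          field_simp
        rw [e]
        exact Submodule.mul_mem_mul hq hp'
      · have e : q * q' * x i = q * x i * q' := by ring
        rw [e]
        exact Submodule.mul_mem_mul (h i hi) hq'

theorem exists_common_denom (V : Submodule K Ω) {ι : Type*} [Finite ι] (x : ι → Ω)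
    (hx : ∀ i, x i ∈ ratioField V) :
    ∃ b : ℕ, ∃ q ∈ V ^ b, q ≠ 0 ∧ ∀ i, q * x i ∈ V ^ b := by
  have := Fintype.ofFinite ι
  obtain ⟨b, q, hq, hq0, h⟩ := denom_finset V x hx Finset.univ
  exact ⟨b, q, hq, hq0, fun i => h i (Finset.mem_univ i)⟩

end Fermat.Agent.S26.G
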